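import Mathlib
import Fermat.Agent.T1.Assembly41.ModCoord

/-!
# MAZ (S15), brick T1A-X1 (helper43): the 1-motive quotient of arithmetic local analytic group data

`D : ModCoordData ℓ J M actM` is T1A's arithmetic form of "local analytic group data" for a finite
`G_ℓ`-module `M` embedded in an ambient group `J` (think `J = J₀(M)(ℚ̄)`).  For a point `x : J` fixed
by `G_ℓ` and `N ≠ 0` we form the 1-motive quotient `MotQuot x N := (J × ℤ) ⧸ ⟨(x, N)⟩`:

* `inJ x N : J →+ MotQuot x N`, `y ↦ [(y, 0)]`, injective (`inJ_injective`);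
* `actQ f hf` : the endomorphism `[(y, n)] ↦ [(f y, n)]` for `f x = x`;
* **`extByPoint`** : the analytic data of `D` (kernel of reduction, coordinates, group law, coefficient
  rings) transfer verbatim to `MotQuot x N`; together with an injective equivariant embedding
  `emb' : M' →+ MotQuot x N` of ANOTHER finite module and centres for it, this is a
  `ModCoordData ℓ (MotQuot x N) M' actM'`.

Application (K2 of the S15 masterplan): `M' = V × ZMod N` the extension module of the Kummer cocycle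
of `x`, `emb' (v, a) = [(v + a.val • y₀, a.val)]` with `N • y₀ = x` (file `KummerEmb.lean`); T1A's chain
`ModCoordData ⟹ DiscGroupDataTrunc ⟹ LocalFunOrder ⟹ FunOrder ⟹ HasFlatModel` then shows that
Kummer classes of rational points are flat.
-/

set_option autoImplicit false
set_option linter.unusedSectionVars false

noncomputable section

namespace Fermat.Agent.MAZ.KumFlat43

open Fermat.Agent.TW.B5.Iface Fermat.Agent.T1.Assembly41

variable {J : Type} [AddCommGroup J]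

/-- The subgroup `⟨(x, N)⟩` of `J × ℤ`. -/
def relSub (x : J) (N : ℕ) : AddSubgroup (J × ℤ) :=
  AddSubgroup.zmultiples ((x, (N : ℤ)) : J × ℤ)

/-- The 1-motive quotient `(J × ℤ) ⧸ ⟨(x, N)⟩`. -/
abbrev MotQuot (x : J) (N : ℕ) : Type := (J × ℤ) ⧸ relSub x N

/-- `[(y, n)]`. -/
def mkQ (x : J) (N : ℕ) : J × ℤ →+ MotQuot x N := QuotientAddGroup.mk' (relSub x N)

theorem mkQ_surjective (x : J) (N : ℕ) : Function.Surjective (mkQ x N) :=
  QuotientAddGroup.mk'_surjective _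

theorem mkQ_rel (x : J) (N : ℕ) : mkQ x N (x, (N : ℤ)) = 0 :=
  (QuotientAddGroup.eq_zero_iff _).2 (AddSubgroup.mem_zmultiples _)

theorem mkQ_eq_zero_iff (x : J) (N : ℕ) (p : J × ℤ) :
    mkQ x N p = 0 ↔ ∃ k : ℤ, k • ((x, (N : ℤ)) : J × ℤ) = p := by
  rw [mkQ, QuotientAddGroup.mk'_apply, QuotientAddGroup.eq_zero_iff, relSub,
    AddSubgroup.mem_zmultiples_iff]

/-- `J → (J × ℤ) ⧸ ⟨(x, N)⟩`, `y ↦ [(y, 0)]`. -/
def inJ (x : J) (N : ℕ) : J →+ MotQuot x N := (mkQ x N).comp (AddMonoidHom.inl J ℤ)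

theorem inJ_apply (x : J) (N : ℕ) (y : J) : inJ x N y = mkQ x N (y, 0) := rfl

theorem inJ_injective (x : J) {N : ℕ} (hN : N ≠ 0) : Function.Injective (inJ x N) := by
  rw [injective_iff_map_eq_zero]
  intro y hy
  obtain ⟨k, hk⟩ := (mkQ_eq_zero_iff x N (y, 0)).1 hy
  have h2 : k • (N : ℤ) = 0 := congrArg Prod.snd hk
  have hk0 : k = 0 := by
    rw [smul_eq_mul] at h2
    rcases mul_eq_zero.1 h2 with h | h
    · exact h
    · exact absurd (by exact_mod_cast h) hN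
  have h1 : k • x = y := congrArg Prod.fst hk
  rw [← h1, hk0, zero_smul]

/-- The endomorphism `[(y, n)] ↦ [(f y, n)]` of the 1-motive quotient, for `f x = x`. -/
def actQ {x : J} {N : ℕ} (f : J →+ J) (hf : f x = x) : MotQuot x N →+ MotQuot x N :=
  QuotientAddGroup.map (relSub x N) (relSub x N) (f.prodMap (AddMonoidHom.id ℤ)) (by
    rw [relSub, AddSubgroup.zmultiples_le]
    show (f.prodMap (AddMonoidHom.id ℤ)) (x, (N : ℤ)) ∈ AddSubgroup.zmultiples ((x, (N : ℤ)) : J × ℤ)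
    have h1 : (f.prodMap (AddMonoidHom.id ℤ)) (x, (N : ℤ)) = (x, (N : ℤ)) :=
      Prod.ext hf rfl
    rw [h1]
    exact AddSubgroup.mem_zmultiples _)

theorem actQ_mkQ {x : J} {N : ℕ} (f : J →+ J) (hf : f x = x) (y : J) (n : ℤ) :
    actQ (N := N) f hf (mkQ x N (y, n)) = mkQ x N (f y, n) := rfl

theorem actQ_inJ {x : J} {N : ℕ} (f : J →+ J) (hf : f x = x) (y : J) :
    actQ (N := N) f hf (inJ x N y) = inJ x N (f y) := rfl

/-! ### Transfer of the analytic data -/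

section Transfer

variable (ℓ : ℕ) [Fact ℓ.Prime] {M : Type} [AddCommGroup M] {actM : Gp ℓ → M → M}
  (D : ModCoordData ℓ J M actM) (x : J) (N : ℕ)

open Classical in
/-- A preimage in the kernel of reduction `D.J1` (junk value `0` outside its image). -/
def preJ (a : MotQuot x N) : J :=
  if h : ∃ y, y ∈ D.J1 ∧ inJ x N y = a then h.choose else 0

variable {x N}

theorem preJ_inJ (hN : N ≠ 0) {y : J} (hy : y ∈ D.J1) : preJ ℓ D x N (inJ x N y) = y := by
  have h : ∃ y', y' ∈ D.J1 ∧ inJ x N y' = inJ x N y := ⟨y, hy, rfl⟩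
  rw [preJ, dif_pos h]
  exact inJ_injective x hN h.choose_spec.2

theorem mem_map_iff (a : MotQuot x N) :
    a ∈ D.J1.map (inJ x N) ↔ ∃ y ∈ D.J1, inJ x N y = a := AddSubgroup.mem_map

/-- **The 1-motive quotient of arithmetic local analytic group data.** -/
def extByPoint (hx : ∀ σ, D.act σ x = x) (hN : N ≠ 0)
    {M' : Type} [AddCommGroup M'] (actM' : Gp ℓ → M' → M')
    (emb' : M' →+ MotQuot x N) (emb'_inj : Function.Injective emb')
    (emb'_equiv : ∀ σ y, emb' (actM' σ y) = actQ (D.act σ) (hx σ) (emb' y))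
    (centres' : ∀ y : M', ∃ (z : J) (n : ℤ), emb' y - mkQ x N (z, n) ∈ D.J1.map (inJ x N) ∧
      ∃ E : IntermediateField ℚ_[ℓ] (Kbar ℓ), FiniteDimensional ℚ_[ℓ] E ∧ IsUnramifiedField ℓ E ∧
        ∀ σ : Gp ℓ, (∀ e ∈ E, σ e = e) → D.act σ z = z) :
    ModCoordData ℓ (MotQuot x N) M' actM' where
  act σ := actQ (D.act σ) (hx σ)
  act_one a := by
    obtain ⟨⟨y, n⟩, rfl⟩ := mkQ_surjective x N a
    rw [actQ_mkQ, D.act_one]
  act_mul σ τ a := by
    obtain ⟨⟨y, n⟩, rfl⟩ := mkQ_surjective x N a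
    rw [actQ_mkQ, actQ_mkQ, actQ_mkQ, D.act_mul]
  J1 := D.J1.map (inJ x N)
  J1_stable σ a ha := by
    obtain ⟨y, hy, rfl⟩ := (mem_map_iff ℓ D a).1 ha
    exact (mem_map_iff ℓ D _).2 ⟨D.act σ y, D.J1_stable σ y hy, (actQ_inJ _ _ y).symm⟩
  g := D.g
  O := D.O
  O_int := D.O_int
  O_field := D.O_field
  c n a i := D.c n (preJ ℓ D x N a) i
  c_mem a ha n i := by
    obtain ⟨y, hy, rfl⟩ := (mem_map_iff ℓ D a).1 ha
    rw [preJ_inJ ℓ D hN hy]
    exact D.c_mem y hy n i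
  c_small a ha n i := by
    obtain ⟨y, hy, rfl⟩ := (mem_map_iff ℓ D a).1 ha
    rw [preJ_inJ ℓ D hN hy]
    exact D.c_small y hy n i
  c_compat a ha n i := by
    obtain ⟨y, hy, rfl⟩ := (mem_map_iff ℓ D a).1 ha
    rw [preJ_inJ ℓ D hN hy]
    exact D.c_compat y hy n i
  c_inj a ha b hb h := by
    obtain ⟨y, hy, rfl⟩ := (mem_map_iff ℓ D a).1 ha
    obtain ⟨y', hy', rfl⟩ := (mem_map_iff ℓ D b).1 hb
    rw [preJ_inJ ℓ D hN hy, preJ_inJ ℓ D hN hy'] at h
    rw [D.c_inj y hy y' hy' h]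
  c_equiv σ a ha n i := by
    obtain ⟨y, hy, rfl⟩ := (mem_map_iff ℓ D a).1 ha
    rw [actQ_inJ, preJ_inJ ℓ D hN hy, preJ_inJ ℓ D hN (D.J1_stable σ y hy)]
    exact D.c_equiv σ y hy n i
  W0 := D.W0
  m := D.m
  m_ndvd := D.m_ndvd
  W0_mu := D.W0_mu
  add_law n := by
    obtain ⟨F, hF⟩ := D.add_law n
    refine ⟨F, fun a ha b hb i => ?_⟩
    obtain ⟨y, hy, rfl⟩ := (mem_map_iff ℓ D a).1 ha
    obtain ⟨y', hy', rfl⟩ := (mem_map_iff ℓ D b).1 hb
    rw [← map_add, preJ_inJ ℓ D hN (D.J1.add_mem hy hy')]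
    have e1 : (fun i => D.c n (preJ ℓ D x N (inJ x N y)) i) = D.c n y := by
      rw [preJ_inJ ℓ D hN hy]
    have e2 : (fun i => D.c n (preJ ℓ D x N (inJ x N y')) i) = D.c n y' := by
      rw [preJ_inJ ℓ D hN hy']
    rw [e1, e2]
    exact hF y hy y' hy' i
  emb := emb'
  emb_inj := emb'_inj
  emb_equiv := emb'_equiv
  centres y := by
    obtain ⟨z, n, hz, E, hE1, hE2, hfix⟩ := centres' y
    refine ⟨mkQ x N (z, n), hz, E, hE1, hE2, fun σ hσ => ?_⟩
    show actQ (D.act σ) (hx σ) (mkQ x N (z, n)) = mkQ x N (z, n)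
    rw [actQ_mkQ, hfix σ hσ]

end Transfer

end Fermat.Agent.MAZ.KumFlat43
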