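import Mathlib
import Fermat.Agent.MAZ.KumFlat43.ExtByPoint

/-!
# MAZ (S15), brick T1A-X2 (helper43): the Kummer extension module inside the 1-motive quotient

`D : ModCoordData ℓ J M actM` (`M` a finite `G_ℓ`-module killed by `N`, embedded in `J` by `D.emb`),
`x : J` fixed by `G_ℓ`, `y₀ : J` with `N • y₀ = x`, `c : G_ℓ → M` with
`D.emb (c σ) = D.act σ y₀ - y₀` (the Kummer cocycle of `x`).

* `extActLoc actM c N` : the action `σ (v, a) = (σ v + a.val • c σ, a)` on `M × ZMod N`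
  (same formula as `FlatCond42.extAct`);
* `kummerEmb` : `M × ZMod N →+ MotQuot x N`, `(v, a) ↦ [(D.emb v + a.val • y₀, a.val)]`,
  injective (`kummerEmb_injective`) and equivariant (`kummerEmb_equiv`);
* **`kummerModCoordData`** : `ModCoordData ℓ (MotQuot x N) (M × ZMod N) (extActLoc actM c N)`, given
  centres for the points `D.emb v + j • y₀`.
-/

set_option autoImplicit false
set_option linter.unusedSectionVars false

noncomputable section

namespace Fermat.Agent.MAZ.KumFlat43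

open Fermat.Agent.TW.B5.Iface Fermat.Agent.T1.Assembly41

variable (ℓ : ℕ) [Fact ℓ.Prime] {J : Type} [AddCommGroup J] {M : Type} [AddCommGroup M]
  {actM : Gp ℓ → M → M}

/-- The action of `G_ℓ` on the extension module `M × ZMod N` of a cochain `c`. -/
def extActLoc (actM : Gp ℓ → M → M) (c : Gp ℓ → M) (N : ℕ) :
    Gp ℓ → M × ZMod N → M × ZMod N :=
  fun σ e => (actM σ e.1 + e.2.val • c σ, e.2)

variable (D : ModCoordData ℓ J M actM) {x y₀ : J} {N : ℕ} [NeZero N]

/-- The underlying function of `kummerEmb`. -/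
def kummerFun (y₀ : J) (x : J) (N : ℕ) (e : M × ZMod N) : MotQuot x N :=
  mkQ x N (D.emb e.1 + e.2.val • y₀, (e.2.val : ℤ))

theorem kummerFun_add (hy₀ : N • y₀ = x) (e e' : M × ZMod N) :
    kummerFun ℓ D y₀ x N (e + e') = kummerFun ℓ D y₀ x N e + kummerFun ℓ D y₀ x N e' := by
  unfold kummerFun
  rw [← map_add]
  -- the two representatives differ by a multiple of `(x, N)`
  have hval : e.2.val + e'.2.val = (e + e').2.val + N * ((e.2.val + e'.2.val) / N) := by
    rw [Prod.snd_add, ZMod.val_add]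
    exact (Nat.mod_add_div _ _).symm
  set q : ℕ := (e.2.val + e'.2.val) / N with hq
  have hdiff : ((D.emb e.1 + e.2.val • y₀, (e.2.val : ℤ)) : J × ℤ) +
      (D.emb e'.1 + e'.2.val • y₀, (e'.2.val : ℤ)) =
      (D.emb (e + e').1 + (e + e').2.val • y₀, ((e + e').2.val : ℤ)) +
        (q : ℤ) • ((x, (N : ℤ)) : J × ℤ) := by
    apply Prod.ext
    · show D.emb e.1 + e.2.val • y₀ + (D.emb e'.1 + e'.2.val • y₀) =
        D.emb (e + e').1 + (e + e').2.val • y₀ + (q : ℤ) • x
      have h1 : e.2.val • y₀ + e'.2.val • y₀ = (e + e').2.val • y₀ + q • x := by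
        rw [← add_nsmul, hval, add_nsmul, mul_nsmul, hy₀]
      rw [Prod.fst_add, map_add, natCast_zsmul]
      calc D.emb e.1 + e.2.val • y₀ + (D.emb e'.1 + e'.2.val • y₀)
          = D.emb e.1 + D.emb e'.1 + (e.2.val • y₀ + e'.2.val • y₀) := by abel
        _ = D.emb e.1 + D.emb e'.1 + ((e + e').2.val • y₀ + q • x) := by rw [h1]
        _ = D.emb e.1 + D.emb e'.1 + (e + e').2.val • y₀ + q • x := by abel
    · show ((e.2.val : ℤ)) + (e'.2.val : ℤ) = ((e + e').2.val : ℤ) + (q : ℤ) • (N : ℤ)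
      rw [smul_eq_mul]
      have := congrArg (fun n : ℕ => (n : ℤ)) hval
      push_cast at this
      linarith
  rw [hdiff, map_add, map_zsmul, mkQ_rel, smul_zero, add_zero]

/-- **The embedding of the Kummer extension module into the 1-motive quotient.** -/
def kummerEmb (hy₀ : N • y₀ = x) : M × ZMod N →+ MotQuot x N :=
  AddMonoidHom.mk' (kummerFun ℓ D y₀ x N) (kummerFun_add ℓ D hy₀)

theorem kummerEmb_apply (hy₀ : N • y₀ = x) (e : M × ZMod N) :
    kummerEmb ℓ D hy₀ e = mkQ x N (D.emb e.1 + e.2.val • y₀, (e.2.val : ℤ)) := rfl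

theorem kummerEmb_injective (hy₀ : N • y₀ = x) : Function.Injective (kummerEmb ℓ D hy₀) := by
  rw [injective_iff_map_eq_zero]
  intro e he
  rw [kummerEmb_apply] at he
  obtain ⟨k, hk⟩ := (mkQ_eq_zero_iff x N _).1 he
  have h2 : k • (N : ℤ) = (e.2.val : ℤ) := congrArg Prod.snd hk
  have h1 : k • x = D.emb e.1 + e.2.val • y₀ := congrArg Prod.fst hk
  have hlt : (e.2.val : ℤ) < N := by exact_mod_cast ZMod.val_lt e.2
  have hge : (0 : ℤ) ≤ e.2.val := Int.natCast_nonneg _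
  have hNpos : (0 : ℤ) < N := by exact_mod_cast Nat.pos_of_ne_zero (NeZero.ne N)
  rw [smul_eq_mul] at h2
  have hk0 : k = 0 := by
    by_contra hne
    rcases lt_or_gt_of_ne hne with hneg | hpos
    · have : k * (N : ℤ) < 0 := mul_neg_of_neg_of_pos hneg hNpos
      linarith
    · have : (N : ℤ) ≤ k * N := by nlinarith
      linarith
  rw [hk0, zero_mul] at h2
  have hval : e.2.val = 0 := by exact_mod_cast h2.symm
  have he2 : e.2 = 0 := (ZMod.val_eq_zero e.2).1 hval
  rw [hk0, zero_smul, hval, zero_smul, add_zero] at h1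
  have he1 : e.1 = 0 := D.emb_inj (by rw [← h1, map_zero])
  exact Prod.ext he1 he2

theorem kummerEmb_equiv (hy₀ : N • y₀ = x) (hx : ∀ σ, D.act σ x = x) (c : Gp ℓ → M)
    (hc : ∀ σ, D.emb (c σ) = D.act σ y₀ - y₀) (σ : Gp ℓ) (e : M × ZMod N) :
    kummerEmb ℓ D hy₀ (extActLoc ℓ actM c N σ e) =
      actQ (D.act σ) (hx σ) (kummerEmb ℓ D hy₀ e) := by
  rw [kummerEmb_apply, kummerEmb_apply, actQ_mkQ]
  congr 2
  show D.emb (actM σ e.1 + e.2.val • c σ) + e.2.val • y₀ = D.act σ (D.emb e.1 + e.2.val • y₀)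
  rw [map_add, map_nsmul, D.emb_equiv, hc, map_add, map_nsmul, smul_sub]
  abel

/-- **Arithmetic local analytic group data for the Kummer extension module.** -/
def kummerModCoordData (hy₀ : N • y₀ = x) (hx : ∀ σ, D.act σ x = x) (c : Gp ℓ → M)
    (hc : ∀ σ, D.emb (c σ) = D.act σ y₀ - y₀)
    (hcen : ∀ (v : M) (j : ℕ), ∃ z : J, D.emb v + j • y₀ - z ∈ D.J1 ∧
      ∃ E : IntermediateField ℚ_[ℓ] (Kbar ℓ), FiniteDimensional ℚ_[ℓ] E ∧ IsUnramifiedField ℓ E ∧
        ∀ σ : Gp ℓ, (∀ e ∈ E, σ e = e) → D.act σ z = z) :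
    ModCoordData ℓ (MotQuot x N) (M × ZMod N) (extActLoc ℓ actM c N) :=
  extByPoint ℓ D hx (NeZero.ne N) (extActLoc ℓ actM c N) (kummerEmb ℓ D hy₀)
    (kummerEmb_injective ℓ D hy₀) (kummerEmb_equiv ℓ D hy₀ hx c hc) (fun e => by
      obtain ⟨z, hz, hE⟩ := hcen e.1 e.2.val
      refine ⟨z, (e.2.val : ℤ), ?_, hE⟩
      rw [kummerEmb_apply, ← map_sub]
      refine (mem_map_iff ℓ D _).2 ⟨D.emb e.1 + e.2.val • y₀ - z, hz, ?_⟩
      rw [inJ_apply]
      congr 1
      exact Prod.ext rfl (sub_self _).symm)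

end Fermat.Agent.MAZ.KumFlat43
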