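/-
Programme MAZ (S15), brick T1A-X (pipe) (helper43): THE GENERIC PIPELINE
`ModCoordData ⟹ HasFlatModel` FOR AN ARBITRARY FINITE `G_ℚ`-MODULE.

The T1A chain (`Lift9.truncOfModCoord`, `Trunc46.truncToExact`, `Alc47.alc`, `Glue44.glue`, composed for
`J₀(M)[ℓ^k]` in `T1/Top48`) is generic in the finite module: for a finite additive `G_ℚ`-module `M` with
open stabilisers, arithmetic local analytic group data (`Assembly41.ModCoordData`) for the restriction of
`M` to `G_ℓ` give a finite flat model of `M` over `ℤ_(ℓ)`.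

* `hasFlatModel_of_modCoordData` : the generic statement;
* `extAct_one`, `extAct_mul`, `extAct_add`, `extAct_open` : the extension module `E_c = V × ℤ/N` of a
  cocycle `c` (vanishing on an open subgroup) is an additive `G_ℚ`-module with open stabilisers;
* **`isFlatCochain_of_modCoordData`** : `FlatCond42.IsFlatCochain ℓ N c` from `ModCoordData` for
  `E_c` restricted to `G_ℓ`; the local action is literally `KumFlat43.extActLoc`
  (`extActLoc_eq`), so `KumFlat43.kummerModCoordData` plugs in.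
-/
import Mathlib
import Fermat.Agent.T1.Alc47
import Fermat.Agent.T1.Trunc46
import Fermat.Agent.T1.Glue44.Main
import Fermat.Agent.T1.Lift9
import Fermat.Agent.MAZ.FlatCond42.ExtMod
import Fermat.Agent.MAZ.KumFlat43.KummerEmb

set_option autoImplicit false
set_option linter.unusedSectionVars false

noncomputable section

namespace Fermat.Agent.MAZ.KumFlat43

open Fermat.Agent.TW.B5.Iface Fermat.Agent.Flat44 Fermat.Agent.T1.AlgIface47
  Fermat.Agent.T1.TruncIface47 Fermat.Agent.T1.Assembly41 Fermat.Agent.MAZ.FlatCond42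

/-- **The generic pipeline.**  A finite additive `G_ℚ`-module with open stabilisers whose restriction
to `G_ℓ` carries arithmetic local analytic group data has a finite flat model over `ℤ_(ℓ)`. -/
theorem hasFlatModel_of_modCoordData (ℓ : ℕ) [Fact ℓ.Prime]
    (M : Type) [AddCommGroup M] [Finite M] (act : GQ → M → M)
    (h1 : ∀ x, act 1 x = x) (hmul : ∀ σ τ x, act (σ * τ) x = act σ (act τ x))
    (hadd : ∀ σ x y, act σ (x + y) = act σ x + act σ y)
    (hopen : ∀ x : M, ∃ L : IntermediateField ℚ Flat44.Qb, FiniteDimensional ℚ L ∧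
      ∀ σ : GQ, (∀ e ∈ L, σ e = e) → act σ x = x)
    {A : Type} [AddCommGroup A]
    (D : ModCoordData ℓ A M (fun σ => act (localGaloisToGlobal ℓ σ))) :
    HasFlatModel ℓ M act := by
  obtain ⟨D1⟩ := Fermat.Agent.T1.Lift9.truncOfModCoord ℓ A M _ D
  obtain ⟨D2⟩ := Fermat.Agent.T1.Trunc46.truncToExact ℓ A M _ D1
  have hloc := Fermat.Agent.T1.Alc47.alc ℓ A M _ D2
  obtain ⟨F⟩ := Fermat.Agent.T1.Glue44.glue ℓ (padicEmbedding ℓ : Flat44.Qb →+* Kbar ℓ)
    (fun σ => localGaloisToGlobal ℓ σ)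
    (fun σ x => padicEmbedding_localGaloisToGlobal ℓ σ x) M act h1 hmul hadd hopen hloc
  exact F.hasFlatModel

/-! ### The extension module of a cocycle -/

section ExtMod

variable {V : Type} [AddCommGroup V] [DistribMulAction GQ V] (N : ℕ) [NeZero N]
  (c : GQ → V) (hcoc : ∀ σ τ, c (σ * τ) = c σ + σ • c τ)

include hcoc in
theorem cocycle_one : c 1 = 0 := by
  have h := hcoc 1 1
  rw [one_mul, one_smul] at h
  exact left_eq_add.mp h

include hcoc in
theorem extAct_one (e : V × ZMod N) : extAct N c 1 e = e := by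
  apply Prod.ext
  · rw [extAct_fst, one_smul, cocycle_one c hcoc, smul_zero, add_zero]
  · rfl

include hcoc in
theorem extAct_mul (σ τ : GQ) (e : V × ZMod N) :
    extAct N c (σ * τ) e = extAct N c σ (extAct N c τ e) := by
  apply Prod.ext
  · rw [extAct_fst, extAct_fst, extAct_snd, extAct_fst, hcoc, mul_smul, smul_add, smul_add,
      smul_comm σ e.2.val (c τ)]
    abel
  · rfl

theorem extAct_add (hN : ∀ y : V, N • y = 0) (σ : GQ) (e e' : V × ZMod N) :
    extAct N c σ (e + e') = extAct N c σ e + extAct N c σ e' := by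
  apply Prod.ext
  · rw [Prod.fst_add, extAct_fst, extAct_fst, extAct_fst, Prod.fst_add, Prod.snd_add, smul_add,
      val_add_nsmul (hN (c σ))]
    abel
  · rfl

theorem extAct_open
    (hV : ∀ x : V, ∃ L : IntermediateField ℚ Flat44.Qb, FiniteDimensional ℚ L ∧
      ∀ σ : GQ, (∀ e ∈ L, σ e = e) → σ • x = x)
    (hc : ∃ L : IntermediateField ℚ Flat44.Qb, FiniteDimensional ℚ L ∧
      ∀ σ : GQ, (∀ e ∈ L, σ e = e) → c σ = 0)
    (x : V × ZMod N) : ∃ L : IntermediateField ℚ Flat44.Qb, FiniteDimensional ℚ L ∧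
      ∀ σ : GQ, (∀ e ∈ L, σ e = e) → extAct N c σ x = x := by
  obtain ⟨L1, hL1, H1⟩ := hV x.1
  obtain ⟨L2, hL2, H2⟩ := hc
  refine ⟨L1 ⊔ L2, IntermediateField.finiteDimensional_sup L1 L2, fun σ hσ => ?_⟩
  apply Prod.ext
  · rw [extAct_fst, H1 σ (fun e he => hσ e ((le_sup_left : L1 ≤ L1 ⊔ L2) he)),
      H2 σ (fun e he => hσ e ((le_sup_right : L2 ≤ L1 ⊔ L2) he)), smul_zero, add_zero]
  · rfl

/-- The restriction to `G_ℓ` of the extension module of `c` is `extActLoc` of the restrictions. -/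
theorem extActLoc_eq (ℓ : ℕ) [Fact ℓ.Prime] :
    (fun σ : Gp ℓ => extAct N c (localGaloisToGlobal ℓ σ)) =
      extActLoc ℓ (fun σ => modAct V (localGaloisToGlobal ℓ σ))
        (fun σ => c (localGaloisToGlobal ℓ σ)) N := rfl

include hcoc in
/-- **Flatness of a cocycle class from arithmetic local analytic group data** for its extension
module. -/
theorem isFlatCochain_of_modCoordData (ℓ : ℕ) [Fact ℓ.Prime] [Finite V]
    (hN : ∀ y : V, N • y = 0)
    (hV : ∀ x : V, ∃ L : IntermediateField ℚ Flat44.Qb, FiniteDimensional ℚ L ∧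
      ∀ σ : GQ, (∀ e ∈ L, σ e = e) → σ • x = x)
    (hc : ∃ L : IntermediateField ℚ Flat44.Qb, FiniteDimensional ℚ L ∧
      ∀ σ : GQ, (∀ e ∈ L, σ e = e) → c σ = 0)
    {A : Type} [AddCommGroup A]
    (D : ModCoordData ℓ A (V × ZMod N)
      (extActLoc ℓ (fun σ => modAct V (localGaloisToGlobal ℓ σ))
        (fun σ => c (localGaloisToGlobal ℓ σ)) N)) :
    IsFlatCochain ℓ N c :=
  hasFlatModel_of_modCoordData ℓ (V × ZMod N) (extAct N c) (extAct_one N c hcoc)
    (extAct_mul N c hcoc) (extAct_add N c hN) (extAct_open N c hV hc) D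

end ExtMod

end Fermat.Agent.MAZ.KumFlat43
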