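/-
Programme MAZ (S15), brick T1A-X (helper43): RESTRICTION of arithmetic local analytic group data to a
submodule, and the Kummer extension module from data for a BIG module.

Input shape of helper59's X3 (`MAZ/KumFlat59/ModCoordSub`): `D : ModCoordData ℓ J S actS` for a (possibly
infinite) `G_ℓ`-stable f.g. group `S` (`= V ⊔ ℤ y₀ ≤ J₀(M)`) containing the finite module `V`, the
division point `y₀` and the rational point `x = N • y₀`.

* `restrict` : `ModCoordData ℓ J M actM → ModCoordData ℓ J M' actM'` along an injective equivariant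
  `f : M' →+ M`;
* **`kummerModCoordData_of_big`** : from `D` for `S`, an injective equivariant `f : V →+ S`, `y₀ x : S`
  with `N • y₀ = x`, `x` fixed, and the cocycle `c : G_ℓ → V` of `y₀` (`f (c σ) = σ y₀ - y₀`) :
  `ModCoordData ℓ (MotQuot (D.emb x) N) (V × ZMod N) (extActLoc ℓ actV c N)`.
  No extra centre hypothesis: the centres of `v + j • y₀ ∈ S` are part of `D`.
-/
import Mathlib
import Fermat.Agent.MAZ.KumFlat43.KummerEmb

set_option autoImplicit false
set_option linter.unusedSectionVars false

noncomputable section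

namespace Fermat.Agent.MAZ.KumFlat43

open Fermat.Agent.TW.B5.Iface Fermat.Agent.T1.Assembly41

variable (ℓ : ℕ) [Fact ℓ.Prime] {J : Type} [AddCommGroup J] {M : Type} [AddCommGroup M]
  {actM : Gp ℓ → M → M}

/-- **Restriction of the module** along an injective equivariant map. -/
def restrict (D : ModCoordData ℓ J M actM) {M' : Type} [AddCommGroup M']
    (actM' : Gp ℓ → M' → M') (f : M' →+ M) (hf : Function.Injective f)
    (hfσ : ∀ σ y, f (actM' σ y) = actM σ (f y)) : ModCoordData ℓ J M' actM' where
  act := D.act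
  act_one := D.act_one
  act_mul := D.act_mul
  J1 := D.J1
  J1_stable := D.J1_stable
  g := D.g
  O := D.O
  O_int := D.O_int
  O_field := D.O_field
  c := D.c
  c_mem := D.c_mem
  c_small := D.c_small
  c_compat := D.c_compat
  c_inj := D.c_inj
  c_equiv := D.c_equiv
  W0 := D.W0
  m := D.m
  m_ndvd := D.m_ndvd
  W0_mu := D.W0_mu
  add_law := D.add_law
  emb := D.emb.comp f
  emb_inj := D.emb_inj.comp hf
  emb_equiv σ y := by
    show D.emb (f (actM' σ y)) = D.act σ (D.emb (f y))
    rw [hfσ, D.emb_equiv]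
  centres y := D.centres (f y)

@[simp] theorem restrict_emb (D : ModCoordData ℓ J M actM) {M' : Type} [AddCommGroup M']
    (actM' : Gp ℓ → M' → M') (f : M' →+ M) (hf : Function.Injective f)
    (hfσ : ∀ σ y, f (actM' σ y) = actM σ (f y)) (y : M') :
    (restrict ℓ D actM' f hf hfσ).emb y = D.emb (f y) := rfl

@[simp] theorem restrict_act (D : ModCoordData ℓ J M actM) {M' : Type} [AddCommGroup M']
    (actM' : Gp ℓ → M' → M') (f : M' →+ M) (hf : Function.Injective f)
    (hfσ : ∀ σ y, f (actM' σ y) = actM σ (f y)) :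
    (restrict ℓ D actM' f hf hfσ).act = D.act := rfl

@[simp] theorem restrict_J1 (D : ModCoordData ℓ J M actM) {M' : Type} [AddCommGroup M']
    (actM' : Gp ℓ → M' → M') (f : M' →+ M) (hf : Function.Injective f)
    (hfσ : ∀ σ y, f (actM' σ y) = actM σ (f y)) :
    (restrict ℓ D actM' f hf hfσ).J1 = D.J1 := rfl

/-- **The Kummer extension module from data for a big module** `S ∋ y₀, x` containing `V`. -/
def kummerModCoordData_of_big {S : Type} [AddCommGroup S] {actS : Gp ℓ → S → S}
    (D : ModCoordData ℓ J S actS) {V : Type} [AddCommGroup V] (actV : Gp ℓ → V → V)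
    (f : V →+ S) (hf : Function.Injective f) (hfσ : ∀ σ v, f (actV σ v) = actS σ (f v))
    {N : ℕ} [NeZero N] (y₀ x : S) (hy₀ : N • y₀ = x) (hx : ∀ σ, actS σ x = x)
    (c : Gp ℓ → V) (hc : ∀ σ, f (c σ) = actS σ y₀ - y₀) :
    ModCoordData ℓ (MotQuot (D.emb x) N) (V × ZMod N) (extActLoc ℓ actV c N) :=
  kummerModCoordData ℓ (restrict ℓ D actV f hf hfσ) (y₀ := D.emb y₀) (x := D.emb x)
    (by rw [← map_nsmul, hy₀])
    (fun σ => by
      show D.act σ (D.emb x) = D.emb x
      rw [← D.emb_equiv, hx])
    c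
    (fun σ => by
      show D.emb (f (c σ)) = D.act σ (D.emb y₀) - D.emb y₀
      rw [hc, map_sub, D.emb_equiv])
    (fun v j => by
      obtain ⟨z, hz, hE⟩ := D.centres (f v + j • y₀)
      refine ⟨z, ?_, hE⟩
      show D.emb (f v) + j • D.emb y₀ - z ∈ D.J1
      rw [← map_nsmul, ← map_add]
      exact hz)

end Fermat.Agent.MAZ.KumFlat43
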